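/-
Programme MZ (S15), area DUAL, file DualGlob3 (helper3): **the global Cartier pairing**
`pairGlob M : dualRep M → M → Qbarˣ`, `pairGlob f x = f x`, with the five hypotheses of a perfect
equivariant pairing in the shape used by `MZ/SEL/DualChain8` and `MZ/TOP/InertiaCount9`
(`pairGlob_add_left`, `pairGlob_add_right`, `pairGlob_inj`, `pairGlob_surj`, `pairGlob_act`),
and its compatibility with the local pairing `DualLoc3.pairLoc` (`embU_pairGlob`).
-/
import Mathlib
import Fermat.Agent.MZ.DUAL.DualLoc3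

set_option autoImplicit false
set_option linter.unusedSectionVars false
set_option linter.style.longLine false

open Fermat.Agent.PT.PRO.LevelCoh28 Fermat.Agent.PT.GLUE.Objects21 Fermat.Agent.TW.DEF.Basic1
open Fermat.Agent.MZ.DUAL.DualRep3 Fermat.Agent.MZ.DUAL.DualLoc3

noncomputable section

namespace Fermat.Agent.MZ.DUAL.DualGlob3

local notation "Qbar" => AlgebraicClosure ℚ

variable (M : Rep.{0} ℤ GQ)

/-- **the global Cartier pairing** `M^* × M → ℚ̄ˣ`. -/
def pairGlob : dualRep M → M → Qbarˣ := fun f x => Additive.toMul ((f : M →+ Additive Qbarˣ) x)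

theorem pairGlob_apply (f : dualRep M) (x : M) :
    pairGlob M f x = Additive.toMul ((f : M →+ Additive Qbarˣ) x) := rfl

theorem pairGlob_add_left (f g : dualRep M) (x : M) :
    pairGlob M (f + g) x = pairGlob M f x * pairGlob M g x := rfl

theorem pairGlob_add_right (f : dualRep M) (x y : M) :
    pairGlob M f (x + y) = pairGlob M f x * pairGlob M f y := by
  rw [pairGlob_apply, pairGlob_apply, pairGlob_apply]
  have : (f : M →+ Additive Qbarˣ) (x + y) = (f : M →+ Additive Qbarˣ) x + (f : M →+ Additive Qbarˣ) y :=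
    map_add (f : M →+ Additive Qbarˣ) x y
  rw [this]
  rfl

theorem pairGlob_eq_one_iff (f : dualRep M) (x : M) :
    pairGlob M f x = 1 ↔ (f : M →+ Additive Qbarˣ) x = 0 := by
  rw [pairGlob_apply]
  constructor
  · intro h
    exact Additive.toMul.injective h
  · intro h
    rw [h]
    rfl

theorem pairGlob_inj (f g : dualRep M) (h : ∀ x : M, pairGlob M f x = pairGlob M g x) : f = g := by
  have : (f : M →+ Additive Qbarˣ) = (g : M →+ Additive Qbarˣ) :=
    AddMonoidHom.ext fun x => Additive.toMul.injective (h x)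
  exact this

theorem pairGlob_surj (χ : Multiplicative M →* Qbarˣ) :
    ∃ f : dualRep M, ∀ x : M, pairGlob M f x = χ (Multiplicative.ofAdd x) := by
  refine ⟨(toHom M).symm χ, fun x => ?_⟩
  have h1 := toHom_apply M ((toHom M).symm χ) x
  rw [Equiv.apply_symm_apply] at h1
  rw [h1]
  rfl

/-- equivariance: `⟨σ f, σ x⟩ = σ ⟨f, x⟩`. -/
theorem pairGlob_act (σ : GQ) (f : dualRep M) (x : M) :
    pairGlob M ((dualRep M).ρ σ f) (M.ρ σ x) = σ • pairGlob M f x :=
  toMul_dualRep_ρ_ρ M σ f x

theorem val_pairGlob_act (σ : GQ) (f : dualRep M) (x : M) :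
    ((pairGlob M ((dualRep M).ρ σ f) (M.ρ σ x) : Qbarˣ) : Qbar) = σ ((pairGlob M f x : Qbarˣ) : Qbar) :=
  val_toMul_dualRep_ρ_ρ M σ f x

/-- the local pairing is the image of the global one. -/
theorem embU_pairGlob (q : ℕ) [Fact q.Prime] (f : dualRep M) (x : M) :
    pairLoc M q f x = embU q (pairGlob M f x) := rfl

/-- the annihilator for the global pairing agrees with the local one. -/
theorem mem_annihLoc_iff_pairGlob (q : ℕ) [Fact q.Prime] (B0 : AddSubgroup (Mq M q))
    (f : Mq (dualRep M) q) :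
    f ∈ annihLoc M q B0 ↔ ∀ x ∈ B0, pairGlob M f x = 1 := by
  rw [mem_annihLoc]
  constructor
  · intro h x hx
    exact (pairGlob_eq_one_iff M f x).2 (h x hx)
  · intro h x hx
    exact (pairGlob_eq_one_iff M f x).1 (h x hx)

end Fermat.Agent.MZ.DUAL.DualGlob3
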