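/-
Programme MZ (S15), area DUAL, file DualRep3 (helper3): **the Cartier dual of a finite `G_ℚ`-module**
(item (F3).1 of helper9's note; decision D5 of T/iface/MZ-MASTER-v2: the Selmer dévissage is run for
`W = G ⊕ G^*`).

`M : Rep ℤ GQ`.  `dualRep M : Rep ℤ GQ` has carrier `M →+ Additive Qbarˣ` and action
`(σ f)(x) = σ (f (σ⁻¹ x))`.

* `dualRepn`, `dualRep`, `toMul_dualRep_ρ`, `dualRep_ρ_apply`;
* `toHom : (M →+ Additive Qbarˣ) ≃ (Multiplicative M →* Qbarˣ)` (Mathlib's `toMultiplicativeLeft`);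
* `finite_dualRep`, `card_dualRep : Nat.card (dualRep M) = Nat.card M` (`M` finite);
* `nsmul_eq_zero_dualRep` : the dual is killed by whatever kills `M`;
* `exists_apply_ne_zero` : the characters separate the points of `M`;
* `exists_extension` : a character of a subgroup extends to `M`;
* `mem_invariants` : `f` is `G_ℚ`-invariant iff it is `G_ℚ`-equivariant;
* `isDiscrete_dualRep` : `M` finite, killed by `n`, discrete for `levelS S`, all primes dividing `n`
  in `S` ⇒ `dualRep M` is discrete for `levelS S` (`ℚ(ζ_n)` is unramified outside `n`).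
-/
import Mathlib
import Fermat.Agent.TW.DEF.Basic1
import Fermat.Agent.ES.P36.ZetaUnr26

set_option autoImplicit false
set_option linter.unusedSectionVars false
set_option linter.style.longLine false
set_option linter.style.haveILetI false

open Fermat.Agent.PT.PRO.LevelCoh28 Fermat.Agent.PT.GLUE.Objects21 Fermat.Agent.TW.DEF.Basic1

noncomputable section

namespace Fermat.Agent.MZ.DUAL.DualRep3

local notation "Qbar" => AlgebraicClosure ℚ

variable (M : Rep.{0} ℤ GQ)

/-- `σ • f` for a character `f : M →+ Additive Qbarˣ`: `x ↦ σ (f (σ⁻¹ x))`. -/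
def dualFun (σ : GQ) (f : M →+ Additive Qbarˣ) : M →+ Additive Qbarˣ where
  toFun x := Additive.ofMul (σ • Additive.toMul (f (M.ρ σ⁻¹ x)))
  map_zero' := by
    rw [map_zero, map_zero, toMul_zero, smul_one, ofMul_one]
  map_add' x y := by
    rw [map_add, map_add, toMul_add, smul_mul', ofMul_mul]

theorem dualFun_apply (σ : GQ) (f : M →+ Additive Qbarˣ) (x : M) :
    dualFun M σ f x = Additive.ofMul (σ • Additive.toMul (f (M.ρ σ⁻¹ x))) := rfl

/-- The contragredient action on the characters of `M`. -/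
def dualRepn : Representation ℤ GQ (M →+ Additive Qbarˣ) where
  toFun σ :=
    { toFun := dualFun M σ
      map_add' := fun f g => by
        refine AddMonoidHom.ext fun x => ?_
        rw [AddMonoidHom.add_apply, dualFun_apply, dualFun_apply, dualFun_apply,
          AddMonoidHom.add_apply, toMul_add, smul_mul', ofMul_mul]
      map_smul' := fun c f => by
        refine AddMonoidHom.ext fun x => ?_
        rw [RingHom.id_apply, AddMonoidHom.smul_apply, dualFun_apply, dualFun_apply,
          AddMonoidHom.smul_apply, toMul_zsmul, smul_zpow', ofMul_zpow] }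
  map_one' := by
    refine LinearMap.ext fun f => ?_
    refine AddMonoidHom.ext fun x => ?_
    show dualFun M 1 f x = f x
    rw [dualFun_apply, inv_one, map_one, one_smul]
    rfl
  map_mul' σ τ := by
    refine LinearMap.ext fun f => ?_
    refine AddMonoidHom.ext fun x => ?_
    show dualFun M (σ * τ) f x = dualFun M σ (dualFun M τ f) x
    rw [dualFun_apply, dualFun_apply, dualFun_apply, mul_inv_rev, map_mul, mul_smul]
    rfl

/-- **The Cartier dual `M^* = Hom(M, ℚ̄ˣ)` of a `G_ℚ`-module.** -/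
abbrev dualRep : Rep.{0} ℤ GQ := Rep.of (X := M →+ Additive Qbarˣ) (dualRepn M)

theorem dualRep_ρ_apply (σ : GQ) (f : dualRep M) (x : M) :
    ((dualRep M).ρ σ f : M →+ Additive Qbarˣ) x =
      Additive.ofMul (σ • Additive.toMul ((f : M →+ Additive Qbarˣ) (M.ρ σ⁻¹ x))) := rfl

theorem toMul_dualRep_ρ (σ : GQ) (f : dualRep M) (x : M) :
    Additive.toMul (((dualRep M).ρ σ f : M →+ Additive Qbarˣ) x) =
      σ • Additive.toMul ((f : M →+ Additive Qbarˣ) (M.ρ σ⁻¹ x)) := rfl

/-- the equivariance form: `(σ f)(σ x) = σ (f x)`. -/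
theorem toMul_dualRep_ρ_ρ (σ : GQ) (f : dualRep M) (x : M) :
    Additive.toMul (((dualRep M).ρ σ f : M →+ Additive Qbarˣ) (M.ρ σ x)) =
      σ • Additive.toMul ((f : M →+ Additive Qbarˣ) x) := by
  rw [toMul_dualRep_ρ]
  congr 3
  have : M.ρ σ⁻¹ (M.ρ σ x) = (M.ρ σ⁻¹ * M.ρ σ) x := rfl
  rw [this, ← map_mul, inv_mul_cancel, map_one]
  rfl

theorem val_toMul_dualRep_ρ_ρ (σ : GQ) (f : dualRep M) (x : M) :
    ((Additive.toMul (((dualRep M).ρ σ f : M →+ Additive Qbarˣ) (M.ρ σ x)) : Qbarˣ) : Qbar) =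
      σ ((Additive.toMul ((f : M →+ Additive Qbarˣ) x) : Qbarˣ) : Qbar) := by
  rw [toMul_dualRep_ρ_ρ]
  rfl

/-! ### characters as monoid homomorphisms -/

/-- characters of `M` as monoid homomorphisms `Multiplicative M →* Qbarˣ`. -/
def toHom : (M →+ Additive Qbarˣ) ≃ (Multiplicative M →* Qbarˣ) :=
  AddMonoidHom.toMultiplicativeLeft

theorem toHom_apply (f : M →+ Additive Qbarˣ) (x : M) :
    toHom M f (Multiplicative.ofAdd x) = Additive.toMul (f x) := rfl

section Finite

variable [Finite M]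

theorem exponent_ne_zero : Monoid.exponent (Multiplicative M) ≠ 0 :=
  Monoid.exponent_ne_zero_of_finite

instance neZero_exponent : NeZero (Monoid.exponent (Multiplicative M)) := ⟨exponent_ne_zero M⟩

theorem card_hom : Nat.card (Multiplicative M →* Qbarˣ) = Nat.card M := by
  have h := CommGroup.card_monoidHom_of_hasEnoughRootsOfUnity (Multiplicative M) Qbar
  rw [h]
  exact Nat.card_congr Multiplicative.toAdd

/-- **`#M^* = #M`.** -/
theorem card_dualRep : Nat.card (dualRep M) = Nat.card M :=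
  (Nat.card_congr (toHom M)).trans (card_hom M)

theorem finite_dualRep : Finite (dualRep M) := by
  apply Nat.finite_of_card_ne_zero
  rw [card_dualRep]
  exact Nat.card_pos.ne'

/-- the characters separate the points of `M`. -/
theorem exists_apply_ne_zero {x : M} (hx : x ≠ 0) : ∃ f : dualRep M, (f : M →+ Additive Qbarˣ) x ≠ 0 := by
  have hx' : Multiplicative.ofAdd x ≠ 1 := fun h => hx (Multiplicative.ofAdd.injective h)
  obtain ⟨φ, hφ⟩ := CommGroup.exists_apply_ne_one_of_hasEnoughRootsOfUnity (Multiplicative M) Qbar hx'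
  refine ⟨(toHom M).symm φ, fun h0 => hφ ?_⟩
  have := toHom_apply M ((toHom M).symm φ) x
  rw [Equiv.apply_symm_apply] at this
  rw [this, h0]
  rfl

/-- a character of a subgroup extends to `M`. -/
theorem exists_extension (H : AddSubgroup M) (g : ↥H →+ Additive Qbarˣ) :
    ∃ f : dualRep M, ∀ x : ↥H, (f : M →+ Additive Qbarˣ) (x : M) = g x := by
  let H' : Subgroup (Multiplicative M) := AddSubgroup.toSubgroup H
  let g' : ↥H' →* Qbarˣ :=
    { toFun := fun y => Additive.toMul (g ⟨Multiplicative.toAdd (y : Multiplicative M), y.2⟩)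
      map_one' := by
        have : (⟨Multiplicative.toAdd ((1 : ↥H') : Multiplicative M), (1 : ↥H').2⟩ : ↥H) = 0 := rfl
        rw [this, map_zero]; rfl
      map_mul' := fun a b => by
        have : (⟨Multiplicative.toAdd ((a * b : ↥H') : Multiplicative M), (a * b).2⟩ : ↥H) =
            ⟨Multiplicative.toAdd (a : Multiplicative M), a.2⟩ +
              ⟨Multiplicative.toAdd (b : Multiplicative M), b.2⟩ := rfl
        rw [this, map_add]; rfl }
  obtain ⟨φ, hφ⟩ := MonoidHom.domRestrict_surjective (M := Qbar) H' g'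
  refine ⟨(toHom M).symm φ, fun x => ?_⟩
  have h1 := toHom_apply M ((toHom M).symm φ) (x : M)
  rw [Equiv.apply_symm_apply] at h1
  have h2 : φ (Multiplicative.ofAdd (x : M)) = g' ⟨Multiplicative.ofAdd (x : M), x.2⟩ := by
    rw [← hφ]; rfl
  apply Additive.toMul.injective
  rw [← h1, h2]
  rfl

end Finite

/-- the dual is killed by whatever kills `M`. -/
theorem nsmul_eq_zero_dualRep {n : ℕ} (hn : ∀ x : M, n • x = 0) (f : dualRep M) : n • f = 0 := by
  have : ∀ x : M, (n • (f : M →+ Additive Qbarˣ)) x = 0 := fun x => by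
    have h1 : (n • (f : M →+ Additive Qbarˣ)) x = n • (f : M →+ Additive Qbarˣ) x := rfl
    rw [h1, ← map_nsmul, hn, map_zero]
  exact AddMonoidHom.ext this

/-- the values of a character of a module killed by `n` are `n`-th roots of unity. -/
theorem toMul_pow_eq_one {n : ℕ} (hn : ∀ x : M, n • x = 0) (f : dualRep M) (x : M) :
    ((Additive.toMul ((f : M →+ Additive Qbarˣ) x) : Qbarˣ) : Qbar) ^ n = 1 := by
  have h : n • (f : M →+ Additive Qbarˣ) x = 0 := by rw [← map_nsmul, hn, map_zero]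
  have h' : (Additive.toMul ((f : M →+ Additive Qbarˣ) x) : Qbarˣ) ^ n = 1 := by
    rw [← toMul_nsmul, h]; rfl
  rw [← Units.val_pow_eq_pow_val, h', Units.val_one]

/-- `f` is `G_ℚ`-invariant iff it is `G_ℚ`-equivariant. -/
theorem mem_invariants (f : dualRep M) :
    f ∈ (dualRep M).ρ.invariants ↔
      ∀ (σ : GQ) (x : M), Additive.toMul ((f : M →+ Additive Qbarˣ) (M.ρ σ x)) =
        σ • Additive.toMul ((f : M →+ Additive Qbarˣ) x) := by
  rw [Representation.mem_invariants]
  constructor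
  · intro h σ x
    rw [← toMul_dualRep_ρ_ρ, h σ]
  · intro h σ
    refine AddMonoidHom.ext fun x => ?_
    apply Additive.toMul.injective
    rw [toMul_dualRep_ρ, ← h σ]
    congr 2
    have : M.ρ σ (M.ρ σ⁻¹ x) = (M.ρ σ * M.ρ σ⁻¹) x := rfl
    rw [this, ← map_mul, mul_inv_cancel, map_one]
    rfl

/-! ### discreteness -/

/-- `ℚ(ζ)` for a root of unity `ζ` of order `n` is unramified outside `S` if the primes dividing
`n` are in `S`. -/
theorem isUnramifiedOutside_adjoin_rootOfUnity (S : Finset Nat.Primes) {n : ℕ}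
    (hnS : ∀ q : Nat.Primes, (q : ℕ) ∣ n → q ∈ S) {ζ : Qbar} (hζ : ζ ^ n = 1) :
    (IntermediateField.adjoin ℚ {ζ}).IsUnramifiedOutside S := by
  refine ⟨IntermediateField.adjoin.finiteDimensional (Algebra.IsIntegral.isIntegral ζ),
    fun q hq A hA τ hτ => ?_⟩
  rw [IntermediateField.mem_fixingSubgroup_iff]
  have hqn : ¬ (q : ℕ) ∣ n := fun h => hq (hnS q h)
  exact (Fermat.Agent.ES.P36.ZetaUnr26.adjoin_rootOfUnity_fixed q.2 hA hqn hζ).2.2 τ hτ

/-- **the dual of a finite discrete `G_S`-module killed by `n` (primes dividing `n` in `S`) is a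
discrete `G_S`-module.** -/
theorem isDiscrete_dualRep [Finite M] (S : Finset Nat.Primes) {n : ℕ} (hn0 : n ≠ 0)
    (hn : ∀ x : M, n • x = 0) (hdisc : IsDiscrete (levelS S).sets M)
    (hnS : ∀ q : Nat.Primes, (q : ℕ) ∣ n → q ∈ S) :
    IsDiscrete (levelS S).sets (dualRep M) := by
  intro f
  -- a common level for all of `M`
  obtain ⟨U, hU, -, hUfix⟩ := hdisc.exists_fixing (levelS S).isBasis (Set.finite_univ (α := M))
  -- a level fixing the `n`-th roots of unity
  haveI : NeZero n := ⟨hn0⟩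
  obtain ⟨ζ, hζ⟩ := HasEnoughRootsOfUnity.exists_primitiveRoot Qbar n
  have hFun := isUnramifiedOutside_adjoin_rootOfUnity S hnS hζ.pow_eq_one
  obtain ⟨W, hW, hWle⟩ := (levelS S).isBasis.directed U hU _ ⟨_, hFun, rfl⟩
  refine ⟨W, hW, fun s hs => ?_⟩
  have hsU : s ∈ U := (hWle hs).1
  have hsF : s ∈ (IntermediateField.adjoin ℚ {ζ}).fixingSubgroup := (hWle hs).2
  have hsζ : s ζ = ζ := (IntermediateField.mem_fixingSubgroup_iff _ _).1 hsF ζ
    (IntermediateField.mem_adjoin_simple_self ℚ ζ)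
  refine AddMonoidHom.ext fun x => ?_
  apply Additive.toMul.injective
  rw [toMul_dualRep_ρ]
  have hx : M.ρ s⁻¹ x = x := by
    have h1 := hUfix s hsU x (Set.mem_univ x)
    have : M.ρ s⁻¹ (M.ρ s x) = (M.ρ s⁻¹ * M.ρ s) x := rfl
    conv_lhs => rw [← h1]
    rw [this, ← map_mul, inv_mul_cancel, map_one]
    rfl
  rw [hx]
  apply Units.ext
  show s ((Additive.toMul ((f : M →+ Additive Qbarˣ) x) : Qbarˣ) : Qbar) = _
  obtain ⟨i, -, hi⟩ := hζ.eq_pow_of_pow_eq_one (toMul_pow_eq_one M hn f x)
  rw [← hi, map_pow, hsζ]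

end Fermat.Agent.MZ.DUAL.DualRep3
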