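/-
Programme MZ (S15), area DUAL, file DualLoc3 (helper3): **the local pairing of the Cartier dual and
`OrdPeu` for the dual** (item (F3).2 of helper9's note).

`M : Rep ℤ GQ` finite, `q` a prime.  `pairLoc M q : Mq (dualRep M) q → Mq M q → (PadicAlgCl q)ˣ`,
`pairLoc f x = padicEmbedding q (f x)`, satisfies the five hypotheses of `DualOrd3.ordPeu_dual`
(`pairLoc_add_left`, `pairLoc_add_right`, `pairLoc_inj`, `pairLoc_surj`, `pairLoc_act`), hence
* **`ordPeu_dualRep`** : `M|_{G_ℓ}` flat, killed by `n`, `B0 ≤ M` cyclotomic on inertia with `M/B0`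
  unramified ⇒ `OrdPeu ℓ (Mq (dualRep M) ℓ) (annihLoc M ℓ B0)`, where
  `annihLoc M ℓ B0 = {f | ∀ x ∈ B0, f x = 0}` (`mem_annihLoc`).
-/
import Mathlib
import Fermat.Agent.MZ.DUAL.DualRep3
import Fermat.Agent.MZ.ORDL.DualOrd3

set_option autoImplicit false
set_option linter.unusedSectionVars false
set_option linter.style.longLine false
set_option linter.style.haveILetI false

open Fermat.Agent.PT.PRO.LevelCoh28 Fermat.Agent.PT.GLUE.Objects21 Fermat.Agent.TW.DEF.Basic1
open Fermat.Agent.TW.LOC.Defs2 (Iq)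
open Fermat.Agent.TW.FLAT.Points6 Fermat.Agent.TW.FLAT.FlatIntrinsic7 Fermat.Agent.TW.FLAT.Ordinary7
open Fermat.Agent.MZ.LOCL.OrdPeu4 Fermat.Agent.MZ.ORDL.DualOrd3 Fermat.Agent.MZ.DUAL.DualRep3

noncomputable section

namespace Fermat.Agent.MZ.DUAL.DualLoc3

local notation "Qbar" => AlgebraicClosure ℚ

variable (M : Rep.{0} ℤ GQ) (q : ℕ) [Fact q.Prime]

/-- the embedding `ℚ̄ˣ → ℚ̄_qˣ`. -/
def embU : Qbarˣ →* (PadicAlgCl q)ˣ := Units.map ((padicEmbedding q : Qbar →+* PadicAlgCl q) : Qbar →* PadicAlgCl q)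

theorem val_embU (u : Qbarˣ) : ((embU q u : (PadicAlgCl q)ˣ) : PadicAlgCl q) = padicEmbedding q (u : Qbar) := rfl

theorem embU_injective : Function.Injective (embU q) := by
  intro u v h
  apply Units.ext
  have := congrArg (fun w : (PadicAlgCl q)ˣ => (w : PadicAlgCl q)) h
  exact (padicEmbedding q : Qbar →+* PadicAlgCl q).injective this

/-- **the local Cartier pairing** `M^* × M → ℚ̄_qˣ`. -/
def pairLoc : Mq (dualRep M) q → Mq M q → (PadicAlgCl q)ˣ :=
  fun f x => embU q (Additive.toMul ((f : M →+ Additive Qbarˣ) x))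

theorem pairLoc_apply (f : Mq (dualRep M) q) (x : Mq M q) :
    pairLoc M q f x = embU q (Additive.toMul ((f : M →+ Additive Qbarˣ) x)) := rfl

theorem pairLoc_add_left (f g : Mq (dualRep M) q) (x : Mq M q) :
    pairLoc M q (f + g) x = pairLoc M q f x * pairLoc M q g x := by
  rw [pairLoc_apply, pairLoc_apply, pairLoc_apply, ← map_mul]
  rfl

theorem pairLoc_add_right (f : Mq (dualRep M) q) (x y : Mq M q) :
    pairLoc M q f (x + y) = pairLoc M q f x * pairLoc M q f y := by
  rw [pairLoc_apply, pairLoc_apply, pairLoc_apply, ← map_mul]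
  congr 1
  have : (f : M →+ Additive Qbarˣ) (x + y) = (f : M →+ Additive Qbarˣ) x + (f : M →+ Additive Qbarˣ) y :=
    map_add (f : M →+ Additive Qbarˣ) x y
  rw [this]
  rfl

theorem pairLoc_eq_one_iff (f : Mq (dualRep M) q) (x : Mq M q) :
    pairLoc M q f x = 1 ↔ (f : M →+ Additive Qbarˣ) x = 0 := by
  rw [pairLoc_apply]
  constructor
  · intro h
    have h1 : embU q (Additive.toMul ((f : M →+ Additive Qbarˣ) x)) = embU q 1 := by rw [h, map_one]
    have h2 := embU_injective q h1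
    exact Additive.toMul.injective h2
  · intro h
    rw [h]
    exact map_one _

theorem pairLoc_inj (f g : Mq (dualRep M) q) (h : ∀ x : Mq M q, pairLoc M q f x = pairLoc M q g x) :
    f = g := by
  have : (f : M →+ Additive Qbarˣ) = (g : M →+ Additive Qbarˣ) := by
    refine AddMonoidHom.ext fun x => ?_
    have h1 := embU_injective q (h x)
    exact Additive.toMul.injective h1
  exact this

theorem pairLoc_act (σ : Gq q) (f : Mq (dualRep M) q) (x : Mq M q) :
    ((pairLoc M q ((Mq (dualRep M) q).ρ σ f) ((Mq M q).ρ σ x) : (PadicAlgCl q)ˣ) : PadicAlgCl q) =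
      σ • ((pairLoc M q f x : (PadicAlgCl q)ˣ) : PadicAlgCl q) := by
  have h1 : ((pairLoc M q ((Mq (dualRep M) q).ρ σ f) ((Mq M q).ρ σ x) : (PadicAlgCl q)ˣ) : PadicAlgCl q) =
      padicEmbedding q ((Additive.toMul (((dualRep M).ρ (rq q σ) f : M →+ Additive Qbarˣ)
        (M.ρ (rq q σ) x)) : Qbarˣ) : Qbar) := rfl
  rw [h1, val_toMul_dualRep_ρ_ρ, padicEmbedding_localGaloisToGlobal]
  rfl

section Finite

variable [Finite M]

/-- the comparison map from characters with values in `ℚ̄ˣ` to characters with values in `ℚ̄_qˣ`. -/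
def compHom (f : M →+ Additive Qbarˣ) : Multiplicative M →* (PadicAlgCl q)ˣ :=
  (embU q).comp (toHom M f)

theorem compHom_injective : Function.Injective (compHom M q) := by
  intro f g h
  refine AddMonoidHom.ext fun x => ?_
  have h1 : compHom M q f (Multiplicative.ofAdd x) = compHom M q g (Multiplicative.ofAdd x) := by rw [h]
  exact Additive.toMul.injective (embU_injective q h1)

theorem card_homLoc : Nat.card (Multiplicative M →* (PadicAlgCl q)ˣ) = Nat.card M := by
  have h := CommGroup.card_monoidHom_of_hasEnoughRootsOfUnity (Multiplicative M) (PadicAlgCl q)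
  rw [h]
  exact Nat.card_congr Multiplicative.toAdd

theorem compHom_surjective : Function.Surjective (compHom M q) := by
  haveI : Finite (Multiplicative M →* (PadicAlgCl q)ˣ) := by
    apply Nat.finite_of_card_ne_zero
    rw [card_homLoc]
    exact Nat.card_pos.ne'
  have hb := (compHom_injective M q).bijective_of_nat_card_le (by
    rw [card_homLoc]
    exact (card_dualRep M).ge)
  exact hb.2

theorem pairLoc_surj (χ : Multiplicative (Mq M q) →* (PadicAlgCl q)ˣ) :
    ∃ f : Mq (dualRep M) q, ∀ x : Mq M q, pairLoc M q f x = χ (Multiplicative.ofAdd x) := by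
  obtain ⟨f, hf⟩ := compHom_surjective M q χ
  refine ⟨f, fun x => ?_⟩
  have : χ (Multiplicative.ofAdd x) = compHom M q f (Multiplicative.ofAdd x) := by rw [hf]
  rw [this]
  rfl

end Finite

/-- the annihilator of `B0` in the dual, as a subgroup of `Mq (dualRep M) q`. -/
def annihLoc (B0 : AddSubgroup (Mq M q)) : AddSubgroup (Mq (dualRep M) q) :=
  annih (pairLoc M q) (pairLoc_add_left M q) B0

theorem mem_annihLoc (B0 : AddSubgroup (Mq M q)) (f : Mq (dualRep M) q) :
    f ∈ annihLoc M q B0 ↔ ∀ x ∈ B0, (f : M →+ Additive Qbarˣ) x = 0 := by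
  constructor
  · intro h x hx
    exact (pairLoc_eq_one_iff M q f x).1 (h x hx)
  · intro h x hx
    exact (pairLoc_eq_one_iff M q f x).2 (h x hx)

/-- **`OrdPeu` for the Cartier dual.** -/
theorem ordPeu_dualRep [Finite M]
    (h : HasFlatModel ℤ_[q] (PadicAlgCl q) (Gq q) (Mq M q) (fun τ b => (Mq M q).ρ τ b))
    (n : ℕ) [NeZero n] (hn : ∀ b : Mq M q, n • b = 0) (B0 : AddSubgroup (Mq M q))
    (hB0cyc : ∀ x ∈ B0, ∀ τ ∈ Iq q, ∀ c : ℕ, IsCycExp n τ c → (Mq M q).ρ τ x = c • x)
    (het : ∀ τ ∈ Iq q, ∀ b : Mq M q, (Mq M q).ρ τ b - b ∈ B0) :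
    OrdPeu q (Mq (dualRep M) q) (annihLoc M q B0) :=
  ordPeu_dual h (pairLoc M q) (pairLoc_add_left M q) (pairLoc_add_right M q) (pairLoc_inj M q)
    (pairLoc_surj M q) (pairLoc_act M q) n hn B0 hB0cyc het

end Fermat.Agent.MZ.DUAL.DualLoc3
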